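import Mathlib

/-!
# S56 / W-BASE / AVL: the extension lemma (EXT)

`exists_addMonoidHom_ext`: let `f : D →+ E` and `v : D →+ N` be additive maps, `N` killed by the
prime `p`, and assume `v d = 0` whenever `f d ∈ p E`.  Then `v = u ∘ f` for some `u : E →+ N`.
(Linear algebra over `𝔽_p` on `D / p D → E / p E`.)  Mathlib only.
-/

set_option autoImplicit false
set_option linter.style.haveILetI false

noncomputable section

namespace Fermat.Agent.S56.H804

/-- Over a field, a linear map `v` killing `ker F` factors through `F`. -/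
theorem exists_comp_eq_of_ker_le {K V W U : Type*} [Field K] [AddCommGroup V] [Module K V]
    [AddCommGroup W] [Module K W] [AddCommGroup U] [Module K U] (F : V →ₗ[K] W)
    (v : V →ₗ[K] U) (h : LinearMap.ker F ≤ LinearMap.ker v) :
    ∃ u : W →ₗ[K] U, ∀ x, u (F x) = v x := by
  obtain ⟨u, hu⟩ := LinearMap.exists_extend
    ((Submodule.liftQ (LinearMap.ker F) v h) ∘ₗ
      (F.quotKerEquivRange.symm : LinearMap.range F →ₗ[K] (V ⧸ LinearMap.ker F)))
  refine ⟨u, fun x => ?_⟩
  have := congrArg (fun m => m ⟨F x, LinearMap.mem_range_self F x⟩) hu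
  simpa [LinearMap.quotKerEquivRange_symm_apply_image] using this

/-- EXT for `𝔽_p`-vector spaces, stated for additive maps. -/
theorem exists_addMonoidHom_ext_zmod (p : ℕ) [Fact p.Prime] {D E N : Type*} [AddCommGroup D]
    [AddCommGroup E] [AddCommGroup N] [Module (ZMod p) D] [Module (ZMod p) E]
    [Module (ZMod p) N] (f : D →+ E) (v : D →+ N) (h : ∀ d : D, f d = 0 → v d = 0) :
    ∃ u : E →+ N, ∀ d, u (f d) = v d := by
  obtain ⟨u, hu⟩ := exists_comp_eq_of_ker_le (AddMonoidHom.toZModLinearMap p f)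
    (AddMonoidHom.toZModLinearMap p v) (fun d hd => h d hd)
  exact ⟨u.toAddMonoidHom, hu⟩

/-- **EXT.**  `f : D →+ E`, `v : D →+ N`, `p N = 0`, and `v d = 0` whenever `f d ∈ p E`:
then `v` factors through `f`. -/
theorem exists_addMonoidHom_ext (p : ℕ) [Fact p.Prime] {D E N : Type*} [AddCommGroup D]
    [AddCommGroup E] [AddCommGroup N] (hN : ∀ n : N, p • n = 0) (f : D →+ E) (v : D →+ N)
    (h : ∀ (d : D) (e : E), f d = p • e → v d = 0) :
    ∃ u : E →+ N, ∀ d, u (f d) = v d := by
  classical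
  -- the subgroups `p D`, `p E`
  obtain ⟨PD, hPD⟩ : ∃ PD : AddSubgroup D, PD = (nsmulAddMonoidHom (α := D) p).range := ⟨_, rfl⟩
  obtain ⟨PE, hPE⟩ : ∃ PE : AddSubgroup E, PE = (nsmulAddMonoidHom (α := E) p).range := ⟨_, rfl⟩
  have hPD' : ∀ x : D, p • x ∈ PD := fun x => hPD ▸ ⟨x, rfl⟩
  have hPE' : ∀ x : E, p • x ∈ PE := fun x => hPE ▸ ⟨x, rfl⟩
  letI : Module (ZMod p) (D ⧸ PD) := QuotientAddGroup.zmodModule hPD'
  letI : Module (ZMod p) (E ⧸ PE) := QuotientAddGroup.zmodModule hPE'
  letI : Module (ZMod p) N := AddCommGroup.zmodModule hN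
  -- the induced maps
  have hfP : PD ≤ PE.comap f := by
    subst hPD
    rintro _ ⟨x, rfl⟩
    rw [AddSubgroup.mem_comap]
    simpa using hPE' (f x)
  have hvP : PD ≤ v.ker := by
    subst hPD
    rintro _ ⟨x, rfl⟩
    simp [AddMonoidHom.mem_ker, hN]
  obtain ⟨u, hu⟩ := exists_addMonoidHom_ext_zmod p (QuotientAddGroup.map PD PE f hfP)
    (QuotientAddGroup.lift PD v hvP) (by
      intro x hx
      induction x using QuotientAddGroup.induction_on with
      | H d =>
        have h1 : ((f d : E) : E ⧸ PE) = 0 := hx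
        rw [QuotientAddGroup.eq_zero_iff, hPE] at h1
        obtain ⟨e, he⟩ := h1
        exact h d e he.symm)
  refine ⟨u.comp (QuotientAddGroup.mk' PE), fun d => ?_⟩
  have := hu (d : D ⧸ PD)
  simpa using this

end Fermat.Agent.S56.H804

end
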