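import Fermat.Agent.S56.H314.AvlSpec
import Fermat.Agent.S56.H804.AvlExt

/-!
# S56 / W-BASE / AVL: Brauer–Nesbitt for lattices (`LatticeChainStatement`)

`latticeChain : H314.LatticeChainStatement`: for an additive function `φ` on finite-dimensional
`k`-representations (`char k = p`), `G`-stable lattices `M • B ≤ A ≤ B` and a finite-dimensional
representation `N`: `φ (Hom(A, N)) = φ (Hom(B, N))`.

Route (`coord/S56-AVL-helper314.md`, item 5): induction on `M` (`Nat.recOnMul`), prime step for
`ℓ • B ≤ A ≤ B` with `f = incl : A → B`, `g = ℓ : B → A`: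
* `ℓ ≠ p`: `f^*` is an isomorphism;
* `ℓ = p`: `0 → ker f^* → Hom(B,N) → ker g^* → 0` and `0 → ker g^* → Hom(A,N) → ker f^* → 0`
  are exact (surjectivity = the extension lemma `exists_addMonoidHom_ext`).
-/

set_option autoImplicit false

noncomputable section

namespace Fermat.Agent.S56.H804

open Fermat.Agent.S56.H314

variable {k : Type} [Field k] {G : Type} [Group G]

/-! ### additive functions -/

section Additive

variable {φ : Rep.{0, 0, 0} k G → ℤ}

/-- `IsAdditiveFun` for unbundled representations. -/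
lemma additive_of_rep (hφ : IsAdditiveFun φ) {X Y Z : Type} [AddCommGroup X] [Module k X]
    [AddCommGroup Y] [Module k Y] [AddCommGroup Z] [Module k Z] [FiniteDimensional k X]
    [FiniteDimensional k Y] [FiniteDimensional k Z] (ρX : Representation k G X)
    (ρY : Representation k G Y) (ρZ : Representation k G Z) (i : X →ₗ[k] Y) (π : Y →ₗ[k] Z)
    (hi : ∀ (g : G) (a : X), i (ρX g a) = ρY g (i a))
    (hπ : ∀ (g : G) (b : Y), π (ρY g b) = ρZ g (π b))
    (hinj : Function.Injective i) (hsurj : Function.Surjective π)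
    (hex : LinearMap.range i = LinearMap.ker π) :
    φ (Rep.of ρY) = φ (Rep.of ρX) + φ (Rep.of ρZ) :=
  hφ (Rep.of ρX) (Rep.of ρY) (Rep.of ρZ) i π ‹_› ‹_› ‹_› hi hπ hinj hsurj hex

/-- an additive function vanishes on zero representations -/
lemma additive_subsingleton (hφ : IsAdditiveFun φ) {X : Type} [AddCommGroup X] [Module k X]
    [Subsingleton X] (ρX : Representation k G X) : φ (Rep.of ρX) = 0 := by
  have h := additive_of_rep hφ ρX ρX ρX LinearMap.id LinearMap.id (fun _ _ => rfl)
    (fun _ _ => rfl) Function.injective_id Function.surjective_id (Subsingleton.elim _ _)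
  linarith

/-- an additive function is invariant under isomorphism -/
lemma additive_of_equiv (hφ : IsAdditiveFun φ) {X Y : Type} [AddCommGroup X] [Module k X]
    [AddCommGroup Y] [Module k Y] [FiniteDimensional k X] [FiniteDimensional k Y]
    (ρX : Representation k G X) (ρY : Representation k G Y) (e : X →ₗ[k] Y)
    (he : ∀ (g : G) (a : X), e (ρX g a) = ρY g (e a)) (hbij : Function.Bijective e) :
    φ (Rep.of ρY) = φ (Rep.of ρX) := by
  have h := additive_of_rep hφ ρX ρY (1 : Representation k G PUnit) e 0 he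
    (fun _ _ => rfl) hbij.1 (fun _ => ⟨0, Subsingleton.elim _ _⟩)
    (by rw [LinearMap.ker_zero, LinearMap.range_eq_top]; exact hbij.2)
  rw [h, additive_subsingleton hφ (1 : Representation k G PUnit), add_zero]

end Additive

/-! ### pull-back of homomorphisms -/

section Pull

variable {A B : Type} [AddCommGroup A] [AddCommGroup B] (σA : Representation ℤ G A)
  (σB : Representation ℤ G B) {N : Type} [AddCommGroup N] [Module k N]
  (ρ : Representation k G N)

/-- `u ↦ u ∘ f`, as a `k`-linear map `Hom(B, N) → Hom(A, N)` -/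
def pull (k : Type) [Field k] (N : Type) [AddCommGroup N] [Module k N] (f : A →+ B) :
    (B →+ N) →ₗ[k] (A →+ N) where
  toFun u := u.comp f
  map_add' u v := by
    ext a
    simp
  map_smul' c u := by
    ext a
    simp

@[simp] lemma pull_apply (f : A →+ B) (u : B →+ N) (a : A) : pull k N f u a = u (f a) := rfl

variable {σA σB}

lemma pull_equivariant {f : A →+ B} (hf : ∀ (g : G) (a : A), f (σA g a) = σB g (f a)) (g : G)
    (u : B →+ N) : pull k N f (homRho σB ρ g u) = homRho σA ρ g (pull k N f u) := by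
  ext a
  simp [hf]

variable (σA σB)

/-- the subrepresentation `ker f^*` of `Hom(B, N)` -/
abbrev kerSub (f : A →+ B) (hf : ∀ (g : G) (a : A), f (σA g a) = σB g (f a)) :
    Subrepresentation (homRho σB ρ) where
  toSubmodule := LinearMap.ker (pull k N f)
  apply_mem_toSubmodule g u hu := by
    rw [LinearMap.mem_ker] at hu ⊢
    rw [pull_equivariant ρ hf, hu, map_zero]

lemma nsmul_eq_zero_of_charP (p : ℕ) [CharP k p] (n : N) : p • n = 0 := by
  rw [← Nat.cast_smul_eq_nsmul k, CharP.cast_eq_zero, zero_smul]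

/-- **the two short exact sequences** (`ℓ = p`): `0 → ker f^* → Hom(B, N) → ker g^* → 0`. -/
theorem phi_hom_eq_add (p : ℕ) [Fact p.Prime] [CharP k p] {φ : Rep.{0, 0, 0} k G → ℤ}
    (hφ : IsAdditiveFun φ) [FiniteDimensional k (A →+ N)] [FiniteDimensional k (B →+ N)]
    (f : A →+ B) (g : B →+ A) (hf : ∀ (s : G) (a : A), f (σA s a) = σB s (f a))
    (hg : ∀ (s : G) (b : B), g (σB s b) = σA s (g b)) (hfg : ∀ b, f (g b) = p • b)
    (hgf : ∀ a, g (f a) = p • a) (hA : ∀ a : A, p • a = 0 → a = 0) :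
    φ (Rep.of (homRho σB ρ)) = φ (Rep.of (kerSub σA σB ρ f hf).toRepresentation) +
      φ (Rep.of (kerSub σB σA ρ g hg).toRepresentation) := by
  have hN : ∀ n : N, p • n = 0 := nsmul_eq_zero_of_charP (k := k) p
  have hmem : ∀ u : B →+ N, pull k N f u ∈ LinearMap.ker (pull k N g) := by
    intro u
    rw [LinearMap.mem_ker]
    ext b
    simp [hfg, hN]
  refine additive_of_rep hφ (kerSub σA σB ρ f hf).toRepresentation (homRho σB ρ)
    (kerSub σB σA ρ g hg).toRepresentation (LinearMap.ker (pull k N f)).subtype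
    ((pull k N f).codRestrict (LinearMap.ker (pull k N g)) hmem) (fun _ _ => rfl) ?_
    (Submodule.injective_subtype _) ?_ ?_
  · intro s u
    apply Subtype.ext
    exact pull_equivariant ρ hf s u
  · rintro ⟨w, hw⟩
    replace hw : pull k N g w = 0 := hw
    obtain ⟨u, hu⟩ := exists_addMonoidHom_ext p hN f w (by
      intro d e hde
      have h1 : p • (d - g e) = 0 := by
        rw [smul_sub, ← hgf, hde, map_nsmul, sub_self]
      have h2 : d = g e := sub_eq_zero.1 (hA _ h1)
      rw [h2]
      exact DFunLike.congr_fun hw e)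
    refine ⟨u, Subtype.ext ?_⟩
    ext a
    exact hu a
  · change LinearMap.range (LinearMap.ker (pull k N f)).subtype = _
    rw [Submodule.range_subtype, LinearMap.ker_codRestrict]

/-- **prime step, `ℓ = p`.** -/
theorem phi_hom_eq_of_eq (p : ℕ) [Fact p.Prime] [CharP k p] {φ : Rep.{0, 0, 0} k G → ℤ}
    (hφ : IsAdditiveFun φ) [FiniteDimensional k (A →+ N)] [FiniteDimensional k (B →+ N)]
    (f : A →+ B) (g : B →+ A) (hf : ∀ (s : G) (a : A), f (σA s a) = σB s (f a))
    (hg : ∀ (s : G) (b : B), g (σB s b) = σA s (g b)) (hfg : ∀ b, f (g b) = p • b)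
    (hgf : ∀ a, g (f a) = p • a) (hA : ∀ a : A, p • a = 0 → a = 0)
    (hB : ∀ b : B, p • b = 0 → b = 0) :
    φ (Rep.of (homRho σA ρ)) = φ (Rep.of (homRho σB ρ)) := by
  rw [phi_hom_eq_add σA σB ρ p hφ f g hf hg hfg hgf hA,
    phi_hom_eq_add σB σA ρ p hφ g f hg hf hgf hfg hB, add_comm]

/-- **prime step, `ℓ ≠ p`.** -/
theorem phi_hom_eq_of_ne (p : ℕ) [Fact p.Prime] [CharP k p] {φ : Rep.{0, 0, 0} k G → ℤ}
    (hφ : IsAdditiveFun φ) [FiniteDimensional k (A →+ N)] [FiniteDimensional k (B →+ N)]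
    (ℓ : ℕ) (hℓ : ℓ.Prime) (hℓp : ℓ ≠ p)
    (f : A →+ B) (g : B →+ A) (hf : ∀ (s : G) (a : A), f (σA s a) = σB s (f a))
    (hfg : ∀ b, f (g b) = ℓ • b) (hgf : ∀ a, g (f a) = ℓ • a) :
    φ (Rep.of (homRho σA ρ)) = φ (Rep.of (homRho σB ρ)) := by
  have hℓk : (ℓ : k) ≠ 0 := by
    intro h0
    rw [CharP.cast_eq_zero_iff k p] at h0
    exact hℓp ((Nat.prime_dvd_prime_iff_eq (Fact.out : p.Prime) hℓ).1 h0).symm
  refine additive_of_equiv hφ (homRho σB ρ) (homRho σA ρ) (pull k N f)
    (fun s u => pull_equivariant ρ hf s u) ⟨?_, ?_⟩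
  · rw [injective_iff_map_eq_zero]
    intro u hu
    have h1 : (ℓ : k) • u = 0 := by
      ext b
      have := DFunLike.congr_fun hu (g b)
      simp only [pull_apply, hfg, map_nsmul, AddMonoidHom.zero_apply] at this
      rw [AddMonoidHom.smul_apply, Nat.cast_smul_eq_nsmul, this, AddMonoidHom.zero_apply]
    exact (smul_eq_zero.1 h1).resolve_left hℓk
  · intro w
    refine ⟨(ℓ : k)⁻¹ • pull k N g w, ?_⟩
    ext a
    simp only [map_smul, AddMonoidHom.smul_apply, pull_apply, hgf, map_nsmul]
    rw [← Nat.cast_smul_eq_nsmul k, smul_smul, inv_mul_cancel₀ hℓk, one_smul]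

end Pull

/-! ### lattices -/

section Lattice

/-- `Hom(A, N)` is finite-dimensional for a finitely generated abelian group `A`. -/
lemma finiteDimensional_addMonoidHom (A : Type) [AddCommGroup A] [Module.Finite ℤ A]
    (N : Type) [AddCommGroup N] [Module k N] [FiniteDimensional k N] :
    FiniteDimensional k (A →+ N) := by
  obtain ⟨s, hs⟩ := (Module.Finite.fg_top : (⊤ : Submodule ℤ A).FG)
  let ev : (A →+ N) →ₗ[k] (s → N) :=
    { toFun := fun u a => u a
      map_add' := fun u v => rfl
      map_smul' := fun c u => rfl }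
  refine FiniteDimensional.of_injective ev ?_
  intro u v huv
  apply AddMonoidHom.toIntLinearMap_injective
  apply LinearMap.ext_on hs
  intro a ha
  exact congrFun huv ⟨a, ha⟩

variable {Λ : Type} [AddCommGroup Λ] [Module.Finite ℤ Λ] [Module.Free ℤ Λ]
  (σ : Representation ℤ G Λ) {N : Type} [AddCommGroup N] [Module k N] [FiniteDimensional k N]
  (ρ : Representation k G N)

lemma nsmul_eq_zero_imp {ℓ : ℕ} (hℓ : ℓ ≠ 0) (S : Submodule ℤ Λ) (a : S) (h : ℓ • a = 0) :
    a = 0 := by
  have h1 : (ℓ : ℤ) • (a : Λ) = 0 := by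
    have := congrArg Subtype.val h
    simpa using this
  have h2 : (a : Λ) = 0 := by
    rcases smul_eq_zero.1 h1 with h3 | h3
    · exact absurd (by exact_mod_cast h3) hℓ
    · exact h3
  exact Subtype.ext h2

/-- **prime step** for sublattices `ℓ • B ≤ A ≤ B`. -/
theorem phi_eq_prime (p : ℕ) [Fact p.Prime] [CharP k p] {φ : Rep.{0, 0, 0} k G → ℤ}
    (hφ : IsAdditiveFun φ) (A B : Subrepresentation σ) (hAB : A ≤ B) (ℓ : ℕ) (hℓ : ℓ.Prime)
    (h : ∀ b ∈ B, ℓ • b ∈ A) :
    φ (Rep.of (homRho A.toRepresentation ρ)) = φ (Rep.of (homRho B.toRepresentation ρ)) := by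
  haveI : FiniteDimensional k (A.toSubmodule →+ N) := finiteDimensional_addMonoidHom _ _
  haveI : FiniteDimensional k (B.toSubmodule →+ N) := finiteDimensional_addMonoidHom _ _
  let f : A.toSubmodule →+ B.toSubmodule :=
    (Submodule.inclusion (fun x hx => hAB hx)).toAddMonoidHom
  let g : B.toSubmodule →+ A.toSubmodule :=
    { toFun := fun b => ⟨ℓ • (b : Λ), h b b.2⟩
      map_zero' := by
        apply Subtype.ext
        simp
      map_add' := fun b b' => by
        apply Subtype.ext
        simp [smul_add] }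
  have hf : ∀ (s : G) (a : A.toSubmodule), f (A.toRepresentation s a) =
      B.toRepresentation s (f a) := fun s a => Subtype.ext rfl
  have hg : ∀ (s : G) (b : B.toSubmodule), g (B.toRepresentation s b) =
      A.toRepresentation s (g b) := fun s b => Subtype.ext (by
    change ℓ • (σ s (b : Λ)) = σ s (ℓ • (b : Λ))
    rw [map_nsmul])
  have hfg : ∀ b, f (g b) = ℓ • b := fun b => Subtype.ext rfl
  have hgf : ∀ a, g (f a) = ℓ • a := fun a => Subtype.ext rfl
  by_cases hℓp : ℓ = p
  · subst hℓp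
    exact phi_hom_eq_of_eq A.toRepresentation B.toRepresentation ρ ℓ hφ f g hf hg hfg hgf
      (nsmul_eq_zero_imp hℓ.ne_zero _) (nsmul_eq_zero_imp hℓ.ne_zero _)
  · exact phi_hom_eq_of_ne A.toRepresentation B.toRepresentation ρ p hφ ℓ hℓ hℓp f g hf hfg hgf

/-- the intermediate lattice `{x ∈ B | a • x ∈ A}` -/
def midSub (A B : Subrepresentation σ) (a : ℕ) : Subrepresentation σ where
  toSubmodule := B.toSubmodule ⊓ A.toSubmodule.comap ((a : ℤ) • (LinearMap.id : Λ →ₗ[ℤ] Λ))
  apply_mem_toSubmodule s v hv := by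
    refine ⟨B.apply_mem_toSubmodule s hv.1, ?_⟩
    have h2 : (a : ℤ) • v ∈ A.toSubmodule := hv.2
    change (a : ℤ) • σ s v ∈ A.toSubmodule
    rw [← map_smul]
    exact A.apply_mem_toSubmodule s h2

lemma mem_midSub {A B : Subrepresentation σ} {a : ℕ} {x : Λ} :
    x ∈ midSub σ A B a ↔ x ∈ B ∧ a • x ∈ A := by
  change x ∈ B.toSubmodule ∧ (a : ℤ) • x ∈ A.toSubmodule ↔ _
  rw [Nat.cast_smul_eq_nsmul]
  rfl

/-- **Brauer–Nesbitt for lattices.** -/
theorem latticeChain : LatticeChainStatement := by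
  intro p _ k _ _ G _ φ hφ Λ _ _ _ σ N _ _ _ ρ A B hAB M hM hMB
  induction M using Nat.recOnMul generalizing A B with
  | zero => exact absurd hM (lt_irrefl 0)
  | one =>
    have : A = B := le_antisymm hAB (fun b hb => by simpa using hMB b hb)
    rw [this]
  | prime ℓ hℓ => exact phi_eq_prime σ ρ p hφ A B hAB ℓ hℓ hMB
  | mul a b iha ihb =>
    have ha : 0 < a := Nat.pos_of_ne_zero (fun h => by simp [h] at hM)
    have hb : 0 < b := Nat.pos_of_ne_zero (fun h => by simp [h] at hM)
    have h1 : A ≤ midSub σ A B a := fun x hx =>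
      (mem_midSub σ).2 ⟨hAB hx, A.toSubmodule.smul_of_tower_mem a hx⟩
    have h2 : midSub σ A B a ≤ B := fun x hx => ((mem_midSub σ).1 hx).1
    rw [iha A (midSub σ A B a) h1 ha (fun x hx => ((mem_midSub σ).1 hx).2),
      ihb (midSub σ A B a) B h2 hb (fun x hx => (mem_midSub σ).2
        ⟨B.toSubmodule.smul_of_tower_mem b hx, by
          rw [smul_smul]
          exact hMB x hx⟩)]

end Lattice

end Fermat.Agent.S56.H804

end
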